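import Fermat.Agent.MazurGeneral.EllipticPlaces
import Fermat.Agent.HeckeJacobian.HeckeCommute
import Fermat.Agent.GaloisAttach.Stabilizer

/-!
# The Hecke correspondence at an elliptic point of order three

Modulo three, `T_ℓ` sends a simple zero of `j` on `X₀(M)` to `ℓ + 1` times itself.
-/

set_option autoImplicit false

noncomputable section

open ModularCurve AlgebraicCurve FLTAgent.FFBasic FLTAgent.ModularFF FLTAgent.HeckeJacobian

namespace FLTAgent.MazurGeneral

local notation "Qbar" => AlgebraicClosure ℚ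

theorem restrictAlong_nonneg_iff {K F F' : Type*} [Field K] [Field F] [Field F'] [Algebra K F]
    [Algebra K F'] (φ : F →ₐ[K] F') (hφ : φ.toRingHom.IsIntegral) (Q : Place K F') (f : F) :
    0 ≤ (Q.restrictAlong φ hφ).ord f ↔ 0 ≤ Q.ord (φ f) := by
  rw [Place.ord_restrictAlong φ hφ Q f]
  have hpos : 0 < (Place.ramificationIndexAlong φ Q : ℤ) := by
    let := algebraAlong φ
    have := isScalarTower_along φ
    have := isIntegral_along φ hφ
    exact_mod_cast Place.ramificationIndex_pos Q
  exact ⟨fun h => mul_nonneg hpos.le h, fun h => nonneg_of_mul_nonneg_right h hpos⟩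

/-- Restricting along an involution preserves orders. -/
theorem ord_restrictAlong_of_involutive {K F : Type*} [Field K] [IsAlgClosed K] [Field F]
    [Algebra K F]
    [IsFunctionField K F] {w : F →ₐ[K] F} (hw : w.comp w = AlgHom.id _ _)
    (hi : w.toRingHom.IsIntegral) (Q : Place K F) (f : F) :
    Q.ord (w f) = (Q.restrictAlong w hi).ord f := by
  obtain ⟨π, -, hπ⟩ := exists_ord_eq Q 1
  have h := Place.ord_restrictAlong w hi Q (w π)
  rw [show w (w π) = π from DFunLike.congr_fun hw π, hπ] at h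
  rw [Place.ord_restrictAlong w hi Q f,
    Int.eq_one_of_mul_eq_one_right (Int.natCast_nonneg _) h.symm, one_mul]

variable {M ℓ : ℕ} [NeZero M] [NeZero ℓ]

/-- The two degeneracy maps have the same degree. -/
theorem finrankAlong_beta_eq (hℓ : ℓ.Prime) (hℓM : ¬ ℓ ∣ M) :
    finrankAlong Qbar (heckeBetaBar Qbar M ℓ) = ℓ + 1 := by
  obtain ⟨w, hwα, -, hww, -⟩ := exists_al_delta M ℓ hℓ hℓM
  have hα := finrankAlong_heckeAlphaBar M ℓ hℓ
  rw [if_neg hℓM] at hα
  rw [← hα]
  symm
  refine @Algebra.finrank_eq_of_equiv_equiv (modularFunctionFieldBar M)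
    (modularFunctionFieldBar (M * ℓ)) _ _ (algebraAlong (heckeAlphaBar Qbar M ℓ))
    (modularFunctionFieldBar M) (modularFunctionFieldBar (M * ℓ)) _ _
    (algebraAlong (heckeBetaBar Qbar M ℓ)) (RingEquiv.refl (modularFunctionFieldBar M))
    (RingEquiv.ofBijective w.toRingHom ⟨w.injective, fun y => ⟨w y, DFunLike.congr_fun hww y⟩⟩) ?_
  exact RingHom.ext fun x => (DFunLike.congr_fun hwα x).symm

/-- A place of `X₀(Mℓ)` over a simple zero of `j` is ramified of degree three or maps to it. -/
theorem three_dvd_or_restrictAlong_eq (hℓ : ℓ.Prime) (hℓM : ¬ ℓ ∣ M)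
    (hα : (heckeAlphaBar Qbar M ℓ).toRingHom.IsIntegral)
    (hβ : (heckeBetaBar Qbar M ℓ).toRingHom.IsIntegral)
    {Q : Place Qbar (modularFunctionFieldBar (M * ℓ))}
    (hQ : (Q.restrictAlong (heckeBetaBar Qbar M ℓ) hβ).ord (jElt Qbar M) = 1) :
    3 ∣ Place.ramificationIndexAlong (heckeBetaBar Qbar M ℓ) Q ∨
      Q.restrictAlong (heckeAlphaBar Qbar M ℓ) hα =
        Q.restrictAlong (heckeBetaBar Qbar M ℓ) hβ := by
  let : Algebra Qbar ℂ := HeckeJacobian.qbarToC.toAlgebra
  have := GaloisAttach.isFunctionField_bar M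
  have := GaloisAttach.isFunctionField_bar (M * ℓ)
  obtain ⟨w, hwα, hwβ, hww, -⟩ := exists_al_delta M ℓ hℓ hℓM
  have hwi : w.toRingHom.IsIntegral :=
    isIntegral_of_isFunctionField w
  set Q' := Q.restrictAlong w hwi
  have hjα : heckeAlphaBar Qbar M ℓ (jElt Qbar M) = jElt Qbar (M * ℓ) :=
    Subtype.ext (by rw [coe_heckeAlphaBar, coe_jElt, coe_jElt])
  have h1 : (Q'.ord (jElt Qbar (M * ℓ))) =
      Place.ramificationIndexAlong (heckeBetaBar Qbar M ℓ) Q := by
    rw [← hjα, ← ord_restrictAlong_of_involutive hww hwi,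
      show w (heckeAlphaBar Qbar M ℓ (jElt Qbar M)) = heckeBetaBar Qbar M ℓ (jElt Qbar M) from
        DFunLike.congr_fun hwα _,
      Place.ord_restrictAlong (heckeBetaBar Qbar M ℓ) hβ Q, hQ, mul_one]
  have hpos : 0 < Place.ramificationIndexAlong (heckeBetaBar Qbar M ℓ) Q := by
    let := algebraAlong (heckeBetaBar Qbar M ℓ)
    have := isScalarTower_along (heckeBetaBar Qbar M ℓ)
    have := isIntegral_along _ hβ
    exact Place.ramificationIndex_pos Q
  obtain ⟨-, k, hk, hk3, -, -⟩ := exists_coset_of_pos Qbar (M * ℓ) (v := Q') (by omega)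
  rw [h1] at hk3
  have hdvd : Place.ramificationIndexAlong (heckeBetaBar Qbar M ℓ) Q ∣ 3 := by
    exact_mod_cast Dvd.intro_left k hk3
  rcases (Nat.dvd_prime Nat.prime_three).mp hdvd with he | he
  · right
    have hsimple : Q'.ord (jElt Qbar (M * ℓ)) = 1 := by rw [h1, he]; rfl
    have h := restrictAlong_alpha_eq_beta Qbar hα hβ hsimple
    have eα : Q'.restrictAlong (heckeAlphaBar Qbar M ℓ) hα =
        Q.restrictAlong (heckeBetaBar Qbar M ℓ) hβ :=
      place_eq_of_forall_ord_nonneg fun f _ => by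
        rw [restrictAlong_nonneg_iff, ← ord_restrictAlong_of_involutive hww hwi,
          restrictAlong_nonneg_iff,
          show w (heckeAlphaBar Qbar M ℓ f) = heckeBetaBar Qbar M ℓ f from
            DFunLike.congr_fun hwα f]
    have eβ : Q'.restrictAlong (heckeBetaBar Qbar M ℓ) hβ =
        Q.restrictAlong (heckeAlphaBar Qbar M ℓ) hα :=
      place_eq_of_forall_ord_nonneg fun f _ => by
        rw [restrictAlong_nonneg_iff, ← ord_restrictAlong_of_involutive hww hwi,
          restrictAlong_nonneg_iff,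
          show w (heckeBetaBar Qbar M ℓ f) = heckeAlphaBar Qbar M ℓ f from
            DFunLike.congr_fun hwβ f]
    rw [← eβ, ← h, eα]
  · left
    rw [he]

/-- Modulo three the correspondence `T_ℓ` multiplies a simple zero of `j` by `ℓ + 1`. -/
theorem three_dvd_correspondence_sub [HasPrincipalDivisors Qbar (modularFunctionFieldBar (M * ℓ))]
    (hℓ : ℓ.Prime) (hℓM : ¬ ℓ ∣ M)
    (hα : (heckeAlphaBar Qbar M ℓ).toRingHom.IsIntegral)
    (hβ : (heckeBetaBar Qbar M ℓ).toRingHom.IsIntegral)
    {P : Place Qbar (modularFunctionFieldBar M)} (hP : P.ord (jElt Qbar M) = 1)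
    (R : Place Qbar (modularFunctionFieldBar M)) :
    (3 : ℤ) ∣ Divisor.pushforwardAlong (heckeAlphaBar Qbar M ℓ) hα
        (Divisor.pullbackAlong (heckeBetaBar Qbar M ℓ) hβ (Finsupp.single P 1)) R -
      ((ℓ : ℤ) + 1) * Finsupp.single P (1 : ℤ) R := by
  classical
  have := GaloisAttach.isFunctionField_bar M
  have := GaloisAttach.isFunctionField_bar (M * ℓ)
  set D := Divisor.pullbackAlong (heckeBetaBar Qbar M ℓ) hβ (Finsupp.single P 1)
  have hdeg : Divisor.degree D = (ℓ : ℤ) + 1 := by
    rw [Divisor.degree_pullbackAlong _ hβ (fundamentalIdentityAlong (heckeBetaBar Qbar M ℓ) hβ),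
      finrankAlong_beta_eq hℓ hℓM, Divisor.degree_single, place_deg_eq_one]
    push_cast
    ring
  have key : ∀ Q, D Q ≠ 0 → 3 ∣ D Q ∨ Q.restrictAlong (heckeAlphaBar Qbar M ℓ) hα = P := by
    intro Q hQ
    rw [Divisor.pullbackAlong_apply] at hQ ⊢
    obtain ⟨-, hne⟩ := mul_ne_zero_iff.mp hQ
    rw [Finsupp.single_apply] at hne
    split_ifs at hne with he
    · rcases three_dvd_or_restrictAlong_eq hℓ hℓM hα hβ (Q := Q) (by rw [← he]; exact hP) with h | h
      · exact Or.inl (Dvd.dvd.mul_right (by exact_mod_cast h) _)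
      · exact Or.inr (h.trans he.symm)
    · exact absurd rfl hne
  have hin : ∀ Q : Place Qbar (modularFunctionFieldBar (M * ℓ)),
      Q.inertiaDegAlong (heckeAlphaBar Qbar M ℓ) hα = 1 := by
    intro Q
    have h := congrArg Divisor.degree (Divisor.pushforwardAlong_single (heckeAlphaBar Qbar M ℓ)
        hα Q 1)
    rw [Divisor.degree_pushforwardAlong, Divisor.degree_single, Divisor.degree_single,
      place_deg_eq_one, place_deg_eq_one, one_mul] at h
    simpa using h.symm
  rw [← hdeg]
  clear hdeg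
  clear_value D
  induction D using Finsupp.induction with
  | zero => simp
  | single_add Q n D' hQ' hn ih =>
    have hDQ : (Finsupp.single Q n + D') Q = n := by
      rw [Finsupp.add_apply, Finsupp.single_eq_same, Finsupp.notMem_support_iff.mp hQ', add_zero]
    have hD' : ∀ S, D' S ≠ 0 → 3 ∣ D' S ∨ S.restrictAlong (heckeAlphaBar Qbar M ℓ) hα = P := by
      intro S hS
      have hSQ : S ≠ Q := fun e => hS (e ▸ Finsupp.notMem_support_iff.mp hQ')
      have h := key S (by rw [Finsupp.add_apply, Finsupp.single_eq_of_ne hSQ, zero_add]; exact hS)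
      rwa [Finsupp.add_apply, Finsupp.single_eq_of_ne hSQ, zero_add] at h
    have h1 := ih hD'
    rw [map_add, map_add, Finsupp.add_apply, Divisor.pushforwardAlong_single, hin, Nat.cast_one,
      mul_one, Divisor.degree_single, place_deg_eq_one, Nat.cast_one, mul_one, add_mul,
      add_sub_add_comm]
    refine dvd_add ?_ h1
    rcases key Q (by rw [hDQ]; exact hn) with h | h
    · rw [hDQ] at h
      refine dvd_sub ?_ (Dvd.dvd.mul_right h _)
      rw [Finsupp.single_apply]
      split_ifs
      · exact h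
      · exact dvd_zero 3
    · rw [h, Finsupp.single_apply, Finsupp.single_apply]
      split_ifs <;> simp

end FLTAgent.MazurGeneral
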