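import Fermat.Agent.MazurGeneral.EllipticPoints

/-!
# The degeneracy maps at a simple zero of `j`

A simple zero of `j` on `X₀(Mℓ)` is the expansion at a translate of `ρ` fixed by a conjugate of
`ST` (`exists_coset_of_pos`), and there the two degeneracy maps to `X₀(M)` agree
(`restrictAlong_alpha_eq_beta`).
-/

set_option autoImplicit false

noncomputable section

open UpperHalfPlane Complex ModularCurve AlgebraicCurve FLTAgent.FFBasic FLTAgent.ModularFF
open scoped MatrixGroups

namespace FLTAgent.MazurGeneral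

section Generic

variable {K F : Type*} [Field K] [IsAlgClosed K] [Field F] [Algebra K F] [IsFunctionField K F]
  [Algebra K ℂ] {X : Type*} [Fintype X]

omit [IsAlgClosed K] [IsFunctionField K F] [Algebra K ℂ] in
/-- Places with the same regular functions agree. -/
theorem place_eq_of_forall_ord_nonneg {v w : Place K F}
    (h : ∀ f : F, f ≠ 0 → (0 ≤ v.ord f ↔ 0 ≤ w.ord f)) : v = w := by
  refine Place.ext ?_
  ext f
  rcases eq_or_ne f 0 with rfl | hf
  · simp [zero_mem]
  constructor <;> intro hm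
  · exact mem_of_ord_nonneg w ((h f hf).mp (ord_nonneg_of_mem v hm))
  · exact mem_of_ord_nonneg v ((h f hf).mpr (ord_nonneg_of_mem w hm))

end Generic

section Series

variable {L : Type*} [Field L] [Algebra L ℂ] [Algebra ℚ L]

/-- The rotation of series as an algebra map. -/
def rotAlgHom (ζ : ℂ) (hζ : ζ ≠ 0) : LaurentSeries ℂ →ₐ[L] LaurentSeries ℂ :=
  { rotSeries ζ hζ with
    commutes' := fun c => by
      show rotSeries ζ hζ (algebraMap L (LaurentSeries ℂ) c) = _
      rw [algebraMap_laurent_complex, rotSeries_C] }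

omit [Algebra ℚ L] in
@[simp] theorem rotAlgHom_apply (ζ : ℂ) (hζ : ζ ≠ 0) (S : LaurentSeries ℂ) :
    rotAlgHom (L := L) ζ hζ S = rotSeries ζ hζ S := rfl

variable {M ℓ : ℕ} [NeZero M] [NeZero ℓ]

/-- At a fixed coset of `ST` the expansion of `f(ℓτ)` is a rotation of that of `f(τ)`. -/
theorem exists_rot_cosetHom {γ : SL(2, ℤ)}
    (hfix : γ⁻¹ * (ModularGroup.S * ModularGroup.T) * γ ∈ CongruenceSubgroup.Gamma0 (M * ℓ)) :
    ∃ (ζ : ℂ) (hζ : ζ ≠ 0), ∀ f : modularFunctionFieldFull M |> laurentBaseChange L,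
      cosetHom L (pointRule (M * ℓ) rhoPt) (QuotientGroup.mk γ) (heckeBetaBar L M ℓ f) =
        rotSeries ζ hζ
          (cosetHom L (pointRule (M * ℓ) rhoPt) (QuotientGroup.mk γ) (heckeAlphaBar L M ℓ f)) := by
  set h := γ⁻¹ with hh
  obtain ⟨g, hg, hgσ⟩ := exists_Gamma0_smul_eq_scale (M := M) (ℓ := ℓ) (h := h)
    (by rw [hh, inv_inv]; exact hfix)
  set σ := h • rhoPt with hσ
  have hg' : g⁻¹ • scaleH ℓ σ = σ := by rw [← hgσ, inv_smul_smul]
  have hh' : h⁻¹ • σ = rhoPt := inv_smul_smul _ _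
  set ζ := rotFactor h⁻¹ σ * (rotFactor g⁻¹ (scaleH ℓ σ) * rotFactor h rhoPt) with hζdef
  have hζ : ζ ≠ 0 :=
    mul_ne_zero (rotFactor_ne_zero _ _) (mul_ne_zero (rotFactor_ne_zero _ _)
      (rotFactor_ne_zero _ _))
  have hζ1 : ‖ζ‖ = 1 := by
    simp [hζdef, norm_rotFactor]
  set u : ℍ → ℍ := fun τ => h⁻¹ • g⁻¹ • scaleH ℓ (h • τ) with hu
  have hucay : ∀ z : ℂ, ‖z‖ < 1 → u (cayley rhoPt z) = cayley rhoPt (ζ * z) := by
    intro z hz
    have h1 : ‖rotFactor h rhoPt * z‖ < 1 := by rwa [norm_mul, norm_rotFactor, one_mul]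
    have h2 : ‖rotFactor g⁻¹ (scaleH ℓ σ) * (rotFactor h rhoPt * z)‖ < 1 := by
      rwa [norm_mul, norm_rotFactor, one_mul]
    simp only [hu]
    rw [smul_cayley_of_smul_eq h hσ.symm hz, scaleH_cayley ℓ σ h1,
      smul_cayley_of_smul_eq g⁻¹ hg' h1, smul_cayley_of_smul_eq h⁻¹ hh' h2, hζdef,
      mul_assoc, mul_assoc]
  refine ⟨ζ, hζ, fun f => DFunLike.congr_fun (show
    (cosetHom L (pointRule (M * ℓ) rhoPt) (QuotientGroup.mk γ)).comp (heckeBetaBar L M ℓ) =
      (rotAlgHom ζ hζ).comp ((cosetHom L (pointRule (M * ℓ) rhoPt) (QuotientGroup.mk γ)).comp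
        (heckeAlphaBar L M ℓ)) from algHom_ext_gen fun i => ?_) f⟩
  simp only [AlgHom.comp_apply, rotAlgHom_apply, cosetHom_mk]
  let iA : Divs (M * ℓ) := ⟨i.1, Nat.mem_divisors.mpr
    ⟨(Nat.dvd_of_mem_divisors i.2).trans (dvd_mul_right M ℓ), NeZero.ne _⟩⟩
  let iB : Divs (M * ℓ) := ⟨ℓ * i.1, Nat.mem_divisors.mpr
    ⟨mul_comm M ℓ ▸ mul_dvd_mul_left ℓ (Nat.dvd_of_mem_divisors i.2), NeZero.ne _⟩⟩
  have eA : heckeAlphaBar L M ℓ (gen L M i) = gen L (M * ℓ) iA := Subtype.ext rfl
  have eB : heckeBetaBar L M ℓ (gen L M i) = gen L (M * ℓ) iB := Subtype.ext (by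
    rw [coe_heckeBetaBar, coe_gen, coe_gen]
    exact qExpand_qExpand i.1 ℓ (jqModC L))
  rw [eA, eB, ← hh]
  refine (pointRule (M * ℓ) rhoPt).unique
    (rel_expHom_gen (L := L) (pointRule (M * ℓ) rhoPt) h iB) ?_
  have hA : HasDisc rhoPt (fun τ => jAt iA.1 (h • τ))
      (expHom L (pointRule (M * ℓ) rhoPt) h (gen L (M * ℓ) iA)) :=
    rel_expHom_gen (L := L) (pointRule (M * ℓ) rhoPt) h iA
  have := hasDisc_transport hA u ζ hζ hζ1 hucay
  convert! this using 1
  funext τ
  simp only [Function.comp_apply, hu, smul_inv_smul]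
  rw [jAt_smul_of_mem_Gamma0 (Nat.dvd_of_mem_divisors i.2) (inv_mem hg)]
  simp only [jAt, iB]
  congr 1
  apply UpperHalfPlane.ext
  simp only [coe_scaleH]
  push_cast
  ring

end Series

variable (L : Type*) [Field L] [Algebra ℚ L] [Algebra L ℂ] [IsAlgClosed L] [CharZero L]
  (N : ℕ) [NeZero N]

omit [CharZero L] in
/-- The zeros of `j` are expansions at translates of `ρ`, and a simple one is fixed by `ST`. -/
theorem exists_coset_of_pos {v : Place L (modField L N)} (hv : 0 < v.ord (jElt L N)) :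
    ∃ (γ : SL(2, ℤ)) (k : ℤ), 0 < k ∧ k * v.ord (jElt L N) = 3 ∧
      (∀ f : modField L N, f ≠ 0 →
        (cosetHom L (pointRule N rhoPt) (QuotientGroup.mk γ) f).order = k * v.ord f) ∧
      (v.ord (jElt L N) = 1 →
        γ⁻¹ * (ModularGroup.S * ModularGroup.T) * γ ∈ CongruenceSubgroup.Gamma0 N) := by
  classical
  have : Fintype (Cosets N) := Fintype.ofFinite _
  have := isFunctionField_modField L N
  set R := pointRule N rhoPt
  have hord : analyticOrderAt (jFun ∘ ofComplex) (rhoPt : ℂ) = ((3 : ℕ) : ℕ∞) := by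
    simpa using analyticOrderAt_jFun_of_E₄ E₄_rhoPt
  set T := cosetHom L R (QuotientGroup.mk 1) (jElt L N)
  have hT : ∀ x, cosetHom L R x (jElt L N) = T := fun x =>
    R.unique (cosetHom_jElt R x) (cosetHom_jElt R _)
  have hTe : T.order = ((3 : ℕ) : ℤ) :=
    HasDisc.order_eq mdiff_jFun (cosetHom_jElt R _) hord
  obtain ⟨x, k, hk, hx⟩ := exists_expansion_eq (cosetHom L R) (cosetHom_injective R)
    (transcendental_jElt L N)
    (by rw [finrank_adjoin_jElt L N, Subgroup.index, Nat.card_eq_fintype_card])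
    T hT (e := 3) (by norm_num) hTe hv
  have hj0 : jElt L N ≠ 0 := fun h => transcendental_jElt L N (h ▸ isAlgebraic_zero)
  have hk3 : k * v.ord (jElt L N) = 3 := by
    rw [← hx _ hj0, hT, hTe]
    norm_num
  obtain ⟨γ, rfl⟩ := QuotientGroup.mk_surjective x
  refine ⟨γ, k, hk, hk3, hx, fun h1 => ?_⟩
  set g := ModularGroup.S * ModularGroup.T
  set x := (QuotientGroup.mk γ : Cosets N)
  have hrot : ∀ f, cosetHom L R (g • x) f =
      rotSeries (rotFactor g⁻¹ rhoPt) (rotFactor_ne_zero _ _) (cosetHom L R x f) :=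
    fun f => cosetHom_smul R g _ (fun f' S hf' => HasDisc.rot hf' (fun τ => g⁻¹ • τ)
      (rotFactor g⁻¹ rhoPt) (rotFactor_ne_zero _ _) (norm_rotFactor _ _)
      (fun z hz => smul_cayley g⁻¹ rhoPt inv_ST_smul_rho hz)) x f
  have hgx : g • x = x := by
    by_contra hne
    have := card_le_ord_of_same_place
      (fun b : Bool => if b then cosetHom L R (g • x) else cosetHom L R x) ?_ T ?_ v hv k hk ?_
    · rw [Fintype.card_bool, h1] at this
      omega
    · intro a b hab
      cases a <;> cases b <;> simp at hab ⊢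
      · exact hne (cosetHom_injective R hab).symm
      · exact hne (cosetHom_injective R hab)
    · intro b
      cases b <;> simp [hT]
    · intro b f hf
      cases b
      · simpa using hx f hf
      · simp only [if_true]
        rw [hrot, rotSeries_order, hx f hf]
  have hm := QuotientGroup.eq.mp (show (QuotientGroup.mk (g * γ) : Cosets N) = QuotientGroup.mk γ
    from hgx)
  have := inv_mem hm
  simpa [mul_assoc] using this

variable {M ℓ : ℕ} [NeZero M] [NeZero ℓ]

omit [CharZero L] in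
/-- At a simple zero of `j` on `X₀(Mℓ)` the two degeneracy maps agree. -/
theorem restrictAlong_alpha_eq_beta (hα : (heckeAlphaBar L M ℓ).toRingHom.IsIntegral)
    (hβ : (heckeBetaBar L M ℓ).toRingHom.IsIntegral) {Q : Place L (modField L (M * ℓ))}
    (hQ : Q.ord (jElt L (M * ℓ)) = 1) :
    Q.restrictAlong (heckeAlphaBar L M ℓ) hα = Q.restrictAlong (heckeBetaBar L M ℓ) hβ := by
  have := isFunctionField_modField L M
  have := isFunctionField_modField L (M * ℓ)
  obtain ⟨γ, k, hk, -, hord, hfix⟩ := exists_coset_of_pos L (M * ℓ) (v := Q) (by omega)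
  obtain ⟨ζ, hζ, hrot⟩ := exists_rot_cosetHom (L := L) (hfix hQ)
  refine place_eq_of_forall_ord_nonneg fun f hf => ?_
  have ha : heckeAlphaBar L M ℓ f ≠ 0 := (map_ne_zero _).mpr hf
  have hb : heckeBetaBar L M ℓ f ≠ 0 := (map_ne_zero _).mpr hf
  have he : Q.ord (heckeBetaBar L M ℓ f) = Q.ord (heckeAlphaBar L M ℓ f) := by
    refine mul_left_cancel₀ hk.ne' ?_
    rw [← hord _ hb, ← hord _ ha, hrot, rotSeries_order]
  have key : ∀ (φ : modField L M →ₐ[L] modField L (M * ℓ)) (hφ : φ.toRingHom.IsIntegral),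
      0 ≤ (Q.restrictAlong φ hφ).ord f ↔ 0 ≤ Q.ord (φ f) := by
    intro φ hφ
    rw [Place.ord_restrictAlong φ hφ Q f]
    have hpos : 0 < (Place.ramificationIndexAlong φ Q : ℤ) := by
      let := algebraAlong φ
      have := isScalarTower_along φ
      have := isIntegral_along φ hφ
      exact_mod_cast Place.ramificationIndex_pos Q
    exact ⟨fun h => mul_nonneg hpos.le h, fun h => nonneg_of_mul_nonneg_right h hpos⟩
  rw [key _ hα, key _ hβ, he]

end FLTAgent.MazurGeneral
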