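import Fermat.Agent.ModularFF.Genus
import Fermat.Agent.ModularFF.AtkinLehnerQbar
import Fermat.Agent.SemistableThree.Elliptic

/-!
# Elliptic points of order three and degeneracy maps

At an elliptic point of order three of `X₀(Mℓ)` the two degeneracy maps to `X₀(M)` agree.
-/

set_option autoImplicit false

noncomputable section

open UpperHalfPlane Complex ModularCurve AlgebraicCurve FLTAgent.FFBasic FLTAgent.ModularFF
open scoped MatrixGroups

namespace FLTAgent.MazurGeneral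

/-- The rotation between the discs at `τ₀` and at `γ • τ₀`. -/
theorem discCoord_smul (γ : SL(2, ℤ)) (τ₀ τ : ℍ) :
    discCoord (γ • τ₀) (γ • τ) = rotFactor γ τ₀ * discCoord τ₀ τ := by
  have hdet : (γ 0 0 : ℂ) * γ 1 1 - (γ 0 1 : ℂ) * γ 1 0 = 1 := by
    have := γ.det_coe
    rw [Matrix.det_fin_two] at this
    exact_mod_cast this
  have hd := denom_SL_ne_zero γ τ
  have hd0 := denom_SL_ne_zero γ τ₀
  have hdc : (γ 1 0 : ℂ) * (starRingEnd ℂ) τ₀ + (γ 1 1 : ℂ) ≠ 0 := by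
    rw [← conj_denom]
    exact (map_ne_zero _).mpr hd0
  have hc : (starRingEnd ℂ) ((γ • τ₀ : ℍ) : ℂ) =
      ((γ 0 0 : ℂ) * (starRingEnd ℂ) τ₀ + γ 0 1) / ((γ 1 0 : ℂ) * (starRingEnd ℂ) τ₀ + γ 1 1) := by
    rw [coe_smul_SL]
    simp [map_div₀, map_add, map_mul]
  have := sub_conj_ne_zero τ₀ τ
  have n1 : ((γ • τ : ℍ) : ℂ) - ((γ • τ₀ : ℍ) : ℂ) = ((τ : ℂ) - τ₀) /
      (((γ 1 0 : ℂ) * τ + γ 1 1) * ((γ 1 0 : ℂ) * τ₀ + γ 1 1)) := by
    rw [coe_smul_SL, coe_smul_SL, div_sub_div _ _ hd hd0]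
    congr 1
    linear_combination ((τ : ℂ) - τ₀) * hdet
  have n2 : ((γ • τ : ℍ) : ℂ) - (starRingEnd ℂ) ((γ • τ₀ : ℍ) : ℂ) =
      ((τ : ℂ) - (starRingEnd ℂ) τ₀) /
        (((γ 1 0 : ℂ) * τ + γ 1 1) * ((γ 1 0 : ℂ) * (starRingEnd ℂ) τ₀ + γ 1 1)) := by
    rw [hc, coe_smul_SL, div_sub_div _ _ hd hdc]
    congr 1
    linear_combination ((τ : ℂ) - (starRingEnd ℂ) τ₀) * hdet
  rw [discCoord, discCoord, n1, n2, rotFactor, div_div_div_eq, div_mul_div_comm]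
  exact (div_eq_div_iff (mul_ne_zero (mul_ne_zero hd hd0) this) (mul_ne_zero hd0 this)).mpr
    (by ring)

theorem smul_cayley_of_smul_eq (γ : SL(2, ℤ)) {τ₀ τ₁ : ℍ} (h : γ • τ₀ = τ₁) {z : ℂ}
    (hz : ‖z‖ < 1) : γ • cayley τ₀ z = cayley τ₁ (rotFactor γ τ₀ * z) := by
  rw [← h]
  conv_rhs => rw [← discCoord_cayley τ₀ hz, ← discCoord_smul, cayley_discCoord]

theorem scaleH_cayley (d : ℕ) [NeZero d] (τ₀ : ℍ) {z : ℂ} (hz : ‖z‖ < 1) :
    scaleH d (cayley τ₀ z) = cayley (scaleH d τ₀) z := by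
  apply UpperHalfPlane.ext
  rw [coe_scaleH, coe_cayley τ₀ hz, coe_cayley _ hz, coe_scaleH, map_mul, Complex.conj_natCast,
    ← mul_div_assoc]
  ring

theorem hasDisc_transport {τ₀ τ₁ : ℍ} {f : ℍ → ℂ} {S : LaurentSeries ℂ} (hf : HasDisc τ₁ f S)
    (σ : ℍ → ℍ) (ζ : ℂ) (hζ : ζ ≠ 0) (hζ1 : ‖ζ‖ = 1)
    (hσ : ∀ z : ℂ, ‖z‖ < 1 → σ (cayley τ₀ z) = cayley τ₁ (ζ * z)) :
    HasDisc τ₀ (f ∘ σ) (rotSeries ζ hζ S) := by
  obtain ⟨P, rfl, hP⟩ := hf
  refine ⟨PowerSeries.rescale ζ P, (rotSeries_ofPowerSeries ζ hζ P).symm, fun z hz => ?_⟩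
  have h1 := hP (ζ * z) (by rwa [norm_mul, hζ1, one_mul])
  rw [Function.comp_apply, hσ z hz]
  convert! h1 using 2 with m
  rw [PowerSeries.coeff_rescale, mul_pow]
  ring

/-- A root in the fundamental domain of a form of discriminant `-3`. -/
theorem eq_rho_of_mem_fd {δ : SL(2, ℤ)} {z : ℍ} (hz : z ∈ ModularGroup.fd) (hfix : δ • z = z)
    (htr : δ 0 0 + δ 1 1 = 1) :
    z = rhoPt ∨ z = ModularGroup.T • rhoPt := by
  obtain ⟨hn, hre⟩ := hz
  have hd := denom_SL_ne_zero δ z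
  have h0 : ((δ 0 0 : ℂ) * z + δ 0 1) = (z : ℂ) * ((δ 1 0 : ℂ) * z + δ 1 1) := by
    have := congrArg (fun t : ℍ => (t : ℂ)) hfix
    rw [coe_smul_SL, div_eq_iff hd] at this
    exact this
  have hdet := δ.det_coe
  rw [Matrix.det_fin_two] at hdet
  set a := δ 0 0
  set b := δ 0 1
  set c := δ 1 0
  set d := δ 1 1
  have hy : 0 < (z : ℂ).im := z.im_pos
  have hr := congrArg Complex.re h0
  have hi := congrArg Complex.im h0
  simp only [Complex.add_re, Complex.add_im, Complex.mul_re, Complex.mul_im, Complex.intCast_re,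
    Complex.intCast_im, zero_mul, sub_zero, add_zero] at hr hi
  have e1 : (c : ℝ) * (2 * (z : ℂ).re) = (a : ℝ) - d := by
    refine mul_left_cancel₀ hy.ne' ?_
    linear_combination -hi
  have e2 : (c : ℝ) * Complex.normSq (z : ℂ) = -(b : ℝ) := by
    rw [Complex.normSq_apply]
    linear_combination hr + (z : ℂ).re * e1
  have hc : c ≠ 0 := by
    intro hc
    rw [hc] at hdet
    simp only [mul_zero, sub_zero] at hdet
    have : a = d := by
      have h := e1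
      rw [hc, Int.cast_zero, zero_mul] at h
      exact_mod_cast (sub_eq_zero.mp h.symm)
    omega
  have hdis : 4 * (-(b * c)) - (a - d) ^ 2 = 3 := by
    linear_combination -(a + d + 1) * htr + 4 * hdet
  have hre' : |(z : ℂ).re| ≤ 1 / 2 := hre
  have hc' : (0 : ℝ) < |(c : ℝ)| := abs_pos.mpr (by exact_mod_cast hc)
  have hbn : -((b : ℝ) * c) = (c : ℝ) ^ 2 * Complex.normSq (z : ℂ) := by
    linear_combination -(c : ℝ) * e2
  have hle1 : c ^ 2 ≤ -(b * c) := by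
    have h : ((c : ℝ)) ^ 2 ≤ -((b : ℝ) * c) := by
      rw [hbn]
      exact le_mul_of_one_le_right (sq_nonneg _) hn
    exact_mod_cast h
  have hle2 : (a - d) ^ 2 ≤ c ^ 2 := by
    have h : ((a : ℝ) - d) ^ 2 ≤ (c : ℝ) ^ 2 := by
      rw [← e1, mul_pow]
      refine mul_le_of_le_one_right (sq_nonneg _) ?_
      rw [sq_le_one_iff_abs_le_one, abs_mul, abs_two]
      linarith
    exact_mod_cast h
  have hc1 : c ^ 2 = 1 := by
    have : 0 < c ^ 2 := by positivity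
    omega
  have hbc : -(b * c) = 1 := by
    have : 0 ≤ (a - d) ^ 2 := sq_nonneg _
    omega
  have had : (a - d) ^ 2 = 1 := by omega
  have hN : Complex.normSq (z : ℂ) = 1 := by
    have h : -((b : ℝ) * c) = 1 := by exact_mod_cast hbc
    have h' : (c : ℝ) ^ 2 = 1 := by exact_mod_cast hc1
    rw [hbn, h', one_mul] at h
    exact h
  have hx : (2 * (z : ℂ).re) ^ 2 = 1 := by
    have h := congrArg (fun t : ℝ => t ^ 2) e1
    simp only [mul_pow] at h
    have h' : (c : ℝ) ^ 2 = 1 := by exact_mod_cast hc1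
    have h'' : ((a : ℝ) - d) ^ 2 = 1 := by exact_mod_cast had
    rw [h', h'', one_mul] at h
    linarith
  have hyv : (z : ℂ).im = Real.sqrt 3 / 2 := by
    rw [Complex.normSq_apply] at hN
    have h4 : (2 * (z : ℂ).im) ^ 2 = 3 := by nlinarith
    have := Real.sqrt_sq (show 0 ≤ 2 * (z : ℂ).im by linarith)
    rw [h4] at this
    linarith
  rw [UpperHalfPlane.coe_re] at hx
  rw [UpperHalfPlane.coe_im] at hyv
  rcases sq_eq_one_iff.mp hx with h | h
  · right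
    apply UpperHalfPlane.ext
    rw [coe_smul_SL]
    apply Complex.ext <;>
      simp [ModularGroup.coe_T, rhoPt] <;> linarith
  · left
    apply UpperHalfPlane.ext
    apply Complex.ext <;> simp [rhoPt] <;> linarith

/-- Fixed points of trace one are translates of `ρ`. -/
theorem exists_smul_rho_eq {δ : SL(2, ℤ)} {τ : ℍ} (hfix : δ • τ = τ) (htr : δ 0 0 + δ 1 1 = 1) :
    ∃ h : SL(2, ℤ), h • rhoPt = τ := by
  obtain ⟨h, hh⟩ := ModularGroup.exists_smul_mem_fd τ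
  have hfix' : (h * δ * h⁻¹) • (h • τ) = h • τ := by
    rw [← mul_smul, inv_mul_cancel_right, mul_smul, hfix]
  have htr' : (h * δ * h⁻¹) 0 0 + (h * δ * h⁻¹) 1 1 = 1 := by
    have e : ((h * δ * h⁻¹ : SL(2, ℤ)) : Matrix (Fin 2) (Fin 2) ℤ).trace =
        (δ : Matrix (Fin 2) (Fin 2) ℤ).trace := by
      rw [Matrix.SpecialLinearGroup.coe_mul, Matrix.trace_mul_comm,
        ← Matrix.SpecialLinearGroup.coe_mul, ← mul_assoc, inv_mul_cancel, one_mul]
    rw [Matrix.trace_fin_two, Matrix.trace_fin_two] at e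
    exact e.trans htr
  rcases eq_rho_of_mem_fd hh hfix' htr' with h' | h'
  · exact ⟨h⁻¹, by rw [← h', inv_smul_smul]⟩
  · exact ⟨h⁻¹ * ModularGroup.T, by rw [mul_smul, ← h', inv_smul_smul]⟩

theorem ST_smul_rho : (ModularGroup.S * ModularGroup.T) • rhoPt = rhoPt := by
  conv_lhs => rw [← inv_ST_smul_rho, smul_inv_smul]

/-- An element of trace one fixing `ρ` is `ST` or its inverse. -/
theorem eq_ST_or_inv {U : SL(2, ℤ)} (hfix : U • rhoPt = rhoPt) (htr : U 0 0 + U 1 1 = 1) :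
    U = ModularGroup.S * ModularGroup.T ∨ U = (ModularGroup.S * ModularGroup.T)⁻¹ := by
  have hd := denom_SL_ne_zero U rhoPt
  have h0 := congrArg (fun t : ℍ => (t : ℂ)) hfix
  rw [coe_smul_SL, div_eq_iff hd] at h0
  have h1 : ((U 0 0 - U 1 1 + U 1 0 : ℤ) : ℂ) * rhoPt + ((U 0 1 + U 1 0 : ℤ) : ℂ) = 0 := by
    push_cast
    linear_combination h0 + (U 1 0 : ℂ) * rhoPt_sq
  have him := congrArg Complex.im h1
  have hre := congrArg Complex.re h1
  simp only [Complex.add_im, Complex.mul_im, Complex.intCast_im, Complex.intCast_re, zero_mul,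
    add_zero, Complex.zero_im] at him
  have him' := (mul_eq_zero.mp him).resolve_right rhoPt.im_pos.ne'
  have hA : U 0 0 - U 1 1 + U 1 0 = 0 := by exact_mod_cast him'
  rw [hA] at hre
  simp at hre
  have hB : U 0 1 + U 1 0 = 0 := by exact_mod_cast hre
  have hdet := U.det_coe
  rw [Matrix.det_fin_two] at hdet
  have hb : U 0 1 = -U 1 0 := by omega
  have hd' : U 1 1 = 1 - U 0 0 := by omega
  have hc : U 1 0 = 1 - 2 * U 0 0 := by omega
  rw [hb, hd', hc] at hdet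
  have ha : U 0 0 * (U 0 0 - 1) = 0 := by linarith
  rcases mul_eq_zero.mp ha with h | h
  · left
    ext i j
    fin_cases i <;> fin_cases j <;>
      simp [ModularGroup.coe_S, ModularGroup.coe_T, Matrix.mul_apply, Fin.sum_univ_two] <;> omega
  · right
    ext i j
    rw [inv_ST_apply]
    fin_cases i <;> fin_cases j <;> simp <;> omega

/-- The entries of `h (ST) h⁻¹`. -/
theorem conj_ST_entries (h : SL(2, ℤ)) :
    (h * (ModularGroup.S * ModularGroup.T) * h⁻¹) 1 0 =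
        (h 1 0) ^ 2 - h 1 0 * h 1 1 + (h 1 1) ^ 2 ∧
      (h * (ModularGroup.S * ModularGroup.T) * h⁻¹) 0 0 * h 1 1 =
        h 1 0 + h 0 1 * ((h 1 0) ^ 2 - h 1 0 * h 1 1 + (h 1 1) ^ 2) := by
  have hdet := h.det_coe
  rw [Matrix.det_fin_two] at hdet
  simp only [Matrix.SpecialLinearGroup.coe_mul, Matrix.SpecialLinearGroup.coe_inv,
    Matrix.adjugate_fin_two, ModularGroup.coe_S, ModularGroup.coe_T, Matrix.mul_apply,
    Fin.sum_univ_two]
  simp
  exact ⟨by ring, by linear_combination (h 1 0) * hdet⟩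

/-- Two translates of `ρ` fixed by corresponding elliptic elements are `Γ₀(M)`-equivalent. -/
theorem mul_inv_mem_Gamma0 {M : ℕ} {h h' : SL(2, ℤ)}
    (hc : (M : ℤ) ∣ (h * (ModularGroup.S * ModularGroup.T) * h⁻¹) 1 0)
    (hc' : (M : ℤ) ∣ (h' * (ModularGroup.S * ModularGroup.T) * h'⁻¹) 1 0)
    (ha : (h * (ModularGroup.S * ModularGroup.T) * h⁻¹) 0 0 =
      (h' * (ModularGroup.S * ModularGroup.T) * h'⁻¹) 0 0) :
    h' * h⁻¹ ∈ CongruenceSubgroup.Gamma0 M := by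
  obtain ⟨e1, e2⟩ := conj_ST_entries h
  obtain ⟨e1', e2'⟩ := conj_ST_entries h'
  rw [e1] at hc
  rw [e1'] at hc'
  rw [← ha] at e2'
  rw [CongruenceSubgroup.Gamma0_mem, ZMod.intCast_zmod_eq_zero_iff_dvd]
  have he : (h' * h⁻¹) 1 0 = h' 1 0 * h 1 1 - h' 1 1 * h 1 0 := by
    simp only [Matrix.SpecialLinearGroup.coe_mul, Matrix.SpecialLinearGroup.coe_inv,
      Matrix.adjugate_fin_two, Matrix.mul_apply, Fin.sum_univ_two]
    simp
    ring
  rw [he]
  set Q := (h 1 0) ^ 2 - h 1 0 * h 1 1 + (h 1 1) ^ 2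
  set Q' := (h' 1 0) ^ 2 - h' 1 0 * h' 1 1 + (h' 1 1) ^ 2
  have : h' 1 0 * h 1 1 - h' 1 1 * h 1 0 = h' 1 1 * h 0 1 * Q - h 1 1 * h' 0 1 * Q' := by
    linear_combination h' 1 1 * e2 - h 1 1 * e2'
  rw [this]
  exact dvd_sub (hc.mul_left _) (hc'.mul_left _)

variable {M ℓ : ℕ} [NeZero M] [NeZero ℓ]

omit [NeZero M] in
/-- The matrix `diag(ℓ, 1) δ diag(ℓ⁻¹, 1)`. -/
theorem exists_conj_scale {δ : SL(2, ℤ)} (hδ : δ ∈ CongruenceSubgroup.Gamma0 (M * ℓ)) {τ : ℍ}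
    (hfix : δ • τ = τ) :
    ∃ δ' : SL(2, ℤ), δ' • scaleH ℓ τ = scaleH ℓ τ ∧ δ' 0 0 = δ 0 0 ∧ δ' 1 1 = δ 1 1 ∧
      δ 1 0 = ℓ * δ' 1 0 ∧ (M : ℤ) ∣ δ' 1 0 := by
  have hdet := δ.det_coe
  rw [Matrix.det_fin_two] at hdet
  rw [CongruenceSubgroup.Gamma0_mem, ZMod.intCast_zmod_eq_zero_iff_dvd] at hδ
  obtain ⟨k, hk⟩ := hδ
  push_cast at hk
  let σ : SL(2, ℤ) := ⟨!![δ 0 0, (ℓ : ℤ) * δ 0 1; M * k, δ 1 1], by
    rw [Matrix.det_fin_two_of]; linear_combination hdet + δ 0 1 * hk⟩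
  refine ⟨σ, ?_, rfl, rfl, by simp [σ, hk]; ring, by simp [σ]⟩
  conv_rhs => rw [← hfix]
  apply UpperHalfPlane.ext
  rw [coe_scaleH, coe_smul_SL, coe_smul_SL, coe_scaleH]
  have hkc : (δ 1 0 : ℂ) = (M : ℂ) * ℓ * k := by exact_mod_cast hk
  simp [σ, hkc]
  ring_nf

omit [NeZero M] in
/-- At an elliptic point of `Γ₀(Mℓ)` the point `ℓτ` is `Γ₀(M)`-equivalent to `τ`. -/
theorem exists_Gamma0_smul_eq_scale {h : SL(2, ℤ)}
    (hδ : h * (ModularGroup.S * ModularGroup.T) * h⁻¹ ∈ CongruenceSubgroup.Gamma0 (M * ℓ)) :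
    ∃ g ∈ CongruenceSubgroup.Gamma0 M, g • (h • rhoPt) = scaleH ℓ (h • rhoPt) := by
  set U := ModularGroup.S * ModularGroup.T
  set δ := h * U * h⁻¹
  have hfix : δ • (h • rhoPt) = h • rhoPt := by
    rw [← mul_smul, inv_mul_cancel_right, mul_smul, ST_smul_rho]
  obtain ⟨δ', hfix', h00, h11, h10, hM⟩ := exists_conj_scale hδ hfix
  have htr : δ 0 0 + δ 1 1 = 1 := by
    have e : ((h * U * h⁻¹ : SL(2, ℤ)) : Matrix (Fin 2) (Fin 2) ℤ).trace =
        (U : Matrix (Fin 2) (Fin 2) ℤ).trace := by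
      rw [Matrix.SpecialLinearGroup.coe_mul, Matrix.trace_mul_comm,
        ← Matrix.SpecialLinearGroup.coe_mul, ← mul_assoc, inv_mul_cancel, one_mul]
    rw [Matrix.trace_fin_two, Matrix.trace_fin_two] at e
    refine e.trans ?_
    simp [U, ModularGroup.coe_S, ModularGroup.coe_T, Matrix.mul_apply, Fin.sum_univ_two]
  obtain ⟨h', hh'⟩ := exists_smul_rho_eq hfix' (by rw [h00, h11, htr])
  have hU : (h'⁻¹ * δ' * h') • rhoPt = rhoPt := by
    rw [mul_smul, mul_smul, hh', hfix', ← hh', inv_smul_smul]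
  have htrU : (h'⁻¹ * δ' * h') 0 0 + (h'⁻¹ * δ' * h') 1 1 = 1 := by
    have e : ((h'⁻¹ * δ' * h' : SL(2, ℤ)) : Matrix (Fin 2) (Fin 2) ℤ).trace =
        (δ' : Matrix (Fin 2) (Fin 2) ℤ).trace := by
      rw [Matrix.SpecialLinearGroup.coe_mul, Matrix.trace_mul_comm,
        ← Matrix.SpecialLinearGroup.coe_mul, ← mul_assoc, mul_inv_cancel, one_mul]
    rw [Matrix.trace_fin_two, Matrix.trace_fin_two] at e
    rw [e, h00, h11, htr]
  obtain ⟨e1, -⟩ := conj_ST_entries h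
  have hpos : 0 < δ 1 0 := by
    have hdet := h.det_coe
    rw [Matrix.det_fin_two] at hdet
    rw [show δ 1 0 = _ from e1]
    by_contra hle
    push Not at hle
    have h1 : h 1 1 = 0 := by nlinarith [sq_nonneg (2 * h 1 0 - h 1 1), sq_nonneg (h 1 1)]
    have h2 : h 1 0 = 0 := by nlinarith
    rw [h1, h2] at hdet
    simp at hdet
  rcases eq_ST_or_inv hU htrU with hUe | hUe
  · have hδ' : δ' = h' * U * h'⁻¹ := by
      rw [show U = h'⁻¹ * δ' * h' from hUe.symm]; group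
    refine ⟨h' * h⁻¹, mul_inv_mem_Gamma0 ?_ (hδ' ▸ hM) (by rw [← hδ', h00]),
      by rw [mul_smul, inv_smul_smul, hh']⟩
    exact Dvd.dvd.trans hM (Dvd.intro_left _ h10.symm)
  · exfalso
    have hδ' : δ'⁻¹ = h' * U * h'⁻¹ := by
      rw [← inv_inj, inv_inv, ← show h' * U⁻¹ * h'⁻¹ = δ' by
        rw [show U⁻¹ = h'⁻¹ * δ' * h' from hUe.symm]; group]
      group
    obtain ⟨e1', -⟩ := conj_ST_entries h'
    rw [← hδ', Matrix.SpecialLinearGroup.coe_inv, Matrix.adjugate_fin_two] at e1'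
    simp at e1'
    have : 0 < δ' 1 0 := by
      have : (0 : ℤ) < ℓ := by exact_mod_cast NeZero.pos ℓ
      nlinarith
    nlinarith [sq_nonneg (2 * h' 1 0 - h' 1 1), sq_nonneg (h' 1 1)]

end FLTAgent.MazurGeneral
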