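import Fermat.Agent.SemistableEisenstein.SlopeHecke

/-!
# Residual Hecke norms computed on lifts

The residual norm of the reduction of a function on `X₀(M)` is the reduction of its norm, and the
slope of `T_ℓ x` is the order of the residual norm of the residue of `x`.
-/

set_option autoImplicit false

noncomputable section

open AlgebraicCurve ModularCurve IsLocalRing FLTAgent.FFBasic FLTAgent.Deuring
open FLTAgent.HeckeJacobian FLTAgent.CongruenceRel FLTAgent.Semistable FLTAgent.Semistable.Level
open FLTAgent.Semistable.Eisenstein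
open FLTAgent.SemistableHecke (HasBar)

namespace FLTAgent.MazurGeneral

local notation "Qbar" => AlgebraicClosure ℚ

variable {A : ValuationSubring Qbar} {M q : ℕ} [NeZero M] [Fact q.Prime]
  (S : Setting M q A (residue A))
variable [IsAlgClosed (ResidueField A)] [CharP (ResidueField A) q]
variable [IsFunctionField (ResidueField A) (modularFunctionFieldFullC (ResidueField A) M)]
variable {ℓ : ℕ} [Fact ℓ.Prime] {u : Qbarˣ} {v : Aˣ}

local notation "kA" => ResidueField A
local notation "FM" => modularFunctionFieldFullC (ResidueField A) M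

omit [CharP (ResidueField A) q]
  [IsFunctionField (ResidueField A) (modularFunctionFieldFullC (ResidueField A) M)] in
theorem hasBar_red {f : modularFunctionFieldBar M} (hf : f ∈ S.red.O) :
    HasBar A (f : LaurentSeries Qbar) (S.red.res ⟨f, hf⟩ : LaurentSeries kA) := by
  obtain ⟨y, z, hz, he, hr⟩ := exists_series_of_mem_O S.good S.surj hf
  exact ⟨y, z, hz, he, by rw [hr]; exact (div_mul_cancel₀ _ hz).symm⟩

omit [CharP (ResidueField A) q]
  [IsFunctionField (ResidueField A) (modularFunctionFieldFullC (ResidueField A) M)] in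
/-- The residual norm of a residue has the reduced divisor of the norm. -/
theorem exists_isNrm_ord (hℓM : ¬ ℓ ∣ M) (hu : IsPrimitiveRoot u ℓ) (huv : ((v : A) : Qbar) = u)
    {r : Place Qbar (modularFunctionFieldBar M) → Place kA FM} (hrm : S.red.IsReductionMap r)
    {f : modularFunctionFieldBar M} (hf : f ∈ S.red.O) (hres : S.red.res ⟨f, hf⟩ ≠ 0)
    (D : Divisor Qbar (modularFunctionFieldBar M))
    (hD : ∀ P, D P = P.ord (normAlong (heckeAlphaBar Qbar M ℓ) (heckeBetaBar Qbar M ℓ f))) :
    ∃ y : FM, IsNrm M ℓ v (S.red.res ⟨f, hf⟩) y ∧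
      ∀ s, s.ord y = Finsupp.mapDomain r D s := by
  have hr₀ : (S.red.res ⟨f, hf⟩ : LaurentSeries kA) ≠ 0 := fun h => hres (Subtype.ext h)
  obtain ⟨hbar, hf'0⟩ := hasBar_qExpand_norm hℓM hu huv (hasBar_red S hf) hr₀
  set f' := normAlong (heckeAlphaBar Qbar M ℓ) (heckeBetaBar Qbar M ℓ f)
  obtain ⟨c, hc, hc'⟩ := S.red.scale f' hf'0
  have hc0 : c ≠ 0 := by
    rintro rfl
    exact hc' (by show S.red.res _ = 0; rw [show (⟨(0 : Qbar) • f', hc⟩ : S.red.O) = 0 from
      Subtype.ext (zero_smul _ f'), map_zero])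
  have hbar' := (hasBar_red S hc).qExpand ℓ
  rw [IntermediateField.coe_smul, Algebra.smul_def, map_mul, qExpand_algebraMap,
    algebraMap_laurentSeries_eq_single] at hbar'
  set r' := S.red.res ⟨c • f', hc⟩
  obtain ⟨a, ha, he⟩ := hbar.eq_const_mul (embProd_ne_zero ℓ _ hr₀) hbar'
    ((_root_.map_ne_zero _).mpr fun h => hc' (Subtype.ext h))
  rw [← algebraMap_laurentSeries_eq_single] at he
  refine ⟨a⁻¹ • r', ?_, fun s => ?_⟩
  · unfold IsNrm
    rw [IntermediateField.coe_smul, Algebra.smul_def, map_mul, qExpand_algebraMap, he,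
      ← mul_assoc, ← map_mul, inv_mul_cancel₀ ha, map_one, one_mul]
  · rw [FFBasic.ord_smul_const _ (inv_ne_zero ha)]
    exact (hrm.2 ⟨c • f', hc⟩ hc' D (fun P => by rw [hD, ord_smul_const P hc0]) s).symm

end FLTAgent.MazurGeneral
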