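import Fermat.Agent.MazurGeneral.EllipticDivisor
import Fermat.Agent.MazurGeneral.NormLift
import Fermat.Agent.SemistableThree.SlopeThree
import Fermat.Agent.MazurStep.Fields

/-!
# Nonzero slopes at three are Eisenstein at every level

If some width is prime to three then the slopes are supported on the crossings below elliptic
points of order three, on which `T_ℓ` is `ℓ + 1` modulo three.
-/

set_option autoImplicit false

noncomputable section

open AlgebraicCurve ModularCurve IsLocalRing FLTAgent.HeckeJacobian FLTAgent.FFBasic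
open FLTAgent.Semistable FLTAgent.Semistable.Level FLTAgent.Semistable.Eisenstein

namespace FLTAgent.MazurGeneral

open FLTAgent.SemistableHecke (pushJ IsPeuFixed SlopeZero)

local notation "Qbar" => AlgebraicClosure ℚ

/-- A divisor with coefficients divisible by `m` is `m` times a divisor. -/
theorem exists_eq_smul_of_dvd {K F : Type*} [Field K] [Field F] [Algebra K F] {m : ℤ}
    {D : Divisor K F} (h : ∀ v, m ∣ D v) : ∃ E : Divisor K F, D = m • E :=
  ⟨D.mapRange (fun a => a / m) (Int.zero_ediv _), Finsupp.ext fun v => by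
    rw [Finsupp.smul_apply, Finsupp.mapRange_apply, smul_eq_mul, Int.mul_ediv_cancel' (h v)]⟩

variable {M : ℕ} [NeZero M] [Fact (3 : ℕ).Prime] {A : ValuationSubring Qbar}
  [IsAlgClosed (IsLocalRing.ResidueField A)] [CharP (IsLocalRing.ResidueField A) 3]
  [IsFunctionField (IsLocalRing.ResidueField A)
    (modularFunctionFieldFullC (IsLocalRing.ResidueField A) M)]
  [IsFunctionField (AlgebraicClosure ℚ) (modularFunctionFieldBar (M * 3))]
  (S : Semistable.Level.Setting M 3 A (IsLocalRing.residue A))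
  (hk : (hbar S : LaurentSeries (IsLocalRing.ResidueField A)) ∈
    IntermediateField.adjoin (IsLocalRing.ResidueField A) {jqModC (IsLocalRing.ResidueField A)})

local notation "kA" => IsLocalRing.ResidueField A
local notation "FM" => modularFunctionFieldFullC (IsLocalRing.ResidueField A) M

omit [IsFunctionField kA FM]
  [IsFunctionField (AlgebraicClosure ℚ) (modularFunctionFieldBar (M * 3))] in
/-- The widths as orders of `j`. -/
theorem ord_hbar_eq (s : Place kA FM) :
    s.ord (hbar S) = 2 * s.ord (Deuring.Modular.jFb (k := kA) M) := by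
  rw [SemistableThree.hbar_eq_sq, FFBasic.ord_pow]
  norm_num

omit [CharP (ResidueField A) 3] [IsFunctionField Qbar (modularFunctionFieldBar (M * 3))] in
/-- The reduction map of places of `X₀(M)`, keeping finite points finite. -/
theorem exists_placeMap :
    ∃ r : Place Qbar (modularFunctionFieldBar M) → Place kA FM, S.red.IsReductionMap r ∧
      ∀ P, 0 ≤ (r P).ord (Deuring.Modular.jFb (k := kA) M) →
        0 ≤ P.ord (ModularFF.jElt Qbar M) := by
  have := Deuring.Modular.isFunctionFieldL S.good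
  set T := Deuring.Modular.atlasX0 S.good S.surj
  refine ⟨T.placeMap, T.isReductionMap, fun P hP => ?_⟩
  have hresx : (Deuring.Modular.reduction S.good S.surj).res T.X.x =
      Deuring.Modular.jFb (k := kA) M :=
    ((Deuring.Modular.model S.good S.surj).res_toO _).trans (Deuring.Modular.red_jF S.good)
  have hxF : (T.X.x : modularFunctionFieldBar M) = ModularFF.jElt Qbar M := Subtype.ext (by
    rw [ModularFF.coe_jElt]; rfl)
  rw [← hxF]
  exact (T.inChart_iff.mpr (by rw [hresx]; exact hP)).ord_nonneg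

omit [CharP (ResidueField A) 3]
  [IsFunctionField (ResidueField A) (modularFunctionFieldFullC (ResidueField A) M)]
  [IsFunctionField Qbar (modularFunctionFieldBar (M * 3))] in
/-- A crossing of width prime to three lies below an elliptic point of order three. -/
theorem exists_elliptic_over {r : Place Qbar (modularFunctionFieldBar M) → Place kA FM}
    (hr : S.red.IsReductionMap r)
    (hfin : ∀ P, 0 ≤ (r P).ord (Deuring.Modular.jFb (k := kA) M) →
      0 ≤ P.ord (ModularFF.jElt Qbar M)) {s : Place kA FM}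
    (hnd : ¬ (3 : ℤ) ∣ s.ord (Deuring.Modular.jFb (k := kA) M))
      (hs : 0 ≤ s.ord (Deuring.Modular.jFb (k := kA) M)) :
    ∃ P, r P = s ∧ P.ord (ModularFF.jElt Qbar M) = 1 := by
  classical
  let : Algebra Qbar ℂ := FLTAgent.HeckeJacobian.qbarToC.toAlgebra
  have := GaloisAttach.isFunctionField_bar M
  set x : Deuring.Modular.seriesRing A M := ⟨Deuring.Modular.jF M, Deuring.Modular.jF_mem⟩
  set X := (Deuring.Modular.model S.good S.surj).toO x
  have hresx : S.red.res X = Deuring.Modular.jFb (k := kA) M :=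
    ((Deuring.Modular.model S.good S.surj).res_toO _).trans (Deuring.Modular.red_jF S.good)
  have hne : S.red.res X ≠ 0 := by
    rw [hresx]
    exact fun h => Deuring.Modular.transcendental_jFb (k := kA) M (h ▸ isAlgebraic_zero)
  have hxF : (X : modularFunctionFieldBar M) = ModularFF.jElt Qbar M := Subtype.ext (by
    rw [ModularFF.coe_jElt]; rfl)
  have h := hr.2 X hne (divFun (K := Qbar) (X : modularFunctionFieldBar M))
    (fun P => divFun_apply _ P) s
  rw [hresx] at h
  by_contra hno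
  push Not at hno
  refine hnd (h ▸ ?_)
  rw [Finsupp.mapDomain, Finsupp.sum_apply]
  refine Finset.dvd_sum fun P _ => ?_
  show (3 : ℤ) ∣ (Finsupp.single (r P) _) s
  rw [Finsupp.single_apply]
  split_ifs with hP
  · rw [divFun_apply, hxF]
    rcases eq_or_lt_of_le (hfin P (hP ▸ hs)) with h0 | hpos
    · rw [← h0]; exact dvd_zero 3
    · obtain ⟨-, k, hk, hk3, -, -⟩ := exists_coset_of_pos Qbar M hpos
      have : (P.ord (ModularFF.jElt Qbar M)).natAbs ∣ 3 :=
        Int.natAbs_dvd_natAbs.mpr (Dvd.intro_left k hk3 : P.ord (ModularFF.jElt Qbar M) ∣ (3 : ℤ))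
      rcases (Nat.dvd_prime Nat.prime_three).mp this with h1 | h1
      · exact absurd (by omega) (hno P hP)
      · rw [show P.ord (ModularFF.jElt Qbar M) = 3 by omega]
  · exact dvd_zero 3

/-- The crossings of width divisible by three have slopes divisible by three if one is not. -/
theorem three_dvd_ord_bar (hA : A.LiesOverPrime 3) {x : JZero (M * 3)} (hx : 3 • x = 0)
    (hα : pushJ (heckeAlphaBar Qbar M 3) x = 0) (hβ : pushJ (heckeBetaBar Qbar M 3) x = 0)
    (hfix : IsPeuFixed A 3 x) {s₀ : nodeSet S}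
    (hs₀ : ¬ (3 : ℤ) ∣ (node₁ S s₀).ord (Deuring.Modular.jFb (k := kA) M)) :
    ∃ T : (pairReduction S hk).TorsionData 3, T.cls = x ∧ ∀ s : nodeSet S,
      (3 : ℤ) ∣ (node₁ S s).ord (Deuring.Modular.jFb (k := kA) M) →
        (3 : ℤ) ∣ (node₁ S s).ord T.bar.1 := by
  obtain ⟨T, hT, j₀, hj⟩ :=
    SemistableSplit.exists_int_congr S hk (by norm_num) hA hx hα hβ hfix
  refine ⟨T, hT, fun s hs => ?_⟩
  have key : ∀ t : nodeSet S, ∃ j : ℤ, (3 : ℤ) ∣ j - j₀ ∧
      12 * (node₁ S t).ord T.bar.1 = j * (node₁ S t).ord (Deuring.Modular.jFb (k := kA) M) := by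
    intro t
    obtain ⟨j, hjd, h⟩ := hj t
    rw [ord_hbar_eq] at h
    exact ⟨j, by exact_mod_cast hjd, by push_cast at h; linarith⟩
  obtain ⟨j, hjd, h⟩ := key s₀
  have hj0 : (3 : ℤ) ∣ j₀ := by
    have h3 : (3 : ℤ) ∣ j := ((Int.prime_three.dvd_mul).mp
      (h ▸ Dvd.dvd.mul_right (by norm_num) _)).resolve_right hs₀
    have := dvd_sub h3 hjd
    rwa [sub_sub_cancel] at this
  obtain ⟨j', hjd', h'⟩ := key s
  obtain ⟨e, he⟩ : (3 : ℤ) ∣ j' := by
    have := dvd_add hjd' hj0
    rwa [sub_add_cancel] at this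
  obtain ⟨u, hu⟩ := hs
  rw [he, hu] at h'
  have h4 : (3 : ℤ) ∣ 4 * (node₁ S s).ord T.bar.1 := ⟨e * u, by linarith⟩
  omega

/-- With a width prime to three `T_ℓ` multiplies the slopes by `ℓ + 1`. -/
theorem slope₁_hecke_three (hA : A.LiesOverPrime 3) {x : JZero (M * 3)} (hx : 3 • x = 0)
    (hα : pushJ (heckeAlphaBar Qbar M 3) x = 0) (hβ : pushJ (heckeBetaBar Qbar M 3) x = 0)
    (hfix : IsPeuFixed A 3 x) {s₀ : nodeSet S}
    (hs₀ : ¬ (3 : ℤ) ∣ (node₁ S s₀).ord (Deuring.Modular.jFb (k := kA) M))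
    {ℓ : ℕ} (hℓ : ℓ.Prime) (hℓN : ¬ ℓ ∣ M * 3) (s : nodeSet S) :
    (pairReduction S hk).slope₁ 3 (heckeOperatorBar (M * 3) ⟨ℓ, hℓ⟩ x) s =
      ((ℓ : ZMod 3) + 1) * (pairReduction S hk).slope₁ 3 x s := by
  classical
  have : Fact ℓ.Prime := ⟨hℓ⟩
  have := GaloisAttach.isFunctionField_bar M
  have := GaloisAttach.isFunctionField_bar (M * ℓ)
  have : HasPrincipalDivisors Qbar (modularFunctionFieldBar (M * ℓ)) := inferInstance
  have hℓM : ¬ ℓ ∣ M := fun h => hℓN (h.mul_right 3)
  obtain ⟨T, hT, hT3⟩ := three_dvd_ord_bar S hk hA hx hα hβ hfix hs₀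
  obtain ⟨u, hu⟩ := SemistableHecke.exists_primitiveRoot ℓ
  obtain ⟨v, hv⟩ := exists_unit_lift (A := A) hℓ.ne_zero hu.pow_eq_one
  obtain ⟨r, hr, hfin⟩ := exists_placeMap S
  set b := T.bar.1 with hbdef
  -- the crossings of width prime to three, and elliptic points over them
  set N₀ := (nodeSet_finite S).toFinset.filter fun t =>
    ¬ (3 : ℤ) ∣ t.ord (Deuring.Modular.jFb (k := kA) M) with hN₀
  have hmemN₀ : ∀ t, t ∈ N₀ ↔ t ∈ nodeSet S ∧
      ¬ (3 : ℤ) ∣ t.ord (Deuring.Modular.jFb (k := kA) M) := fun t => by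
    rw [hN₀, Finset.mem_filter, Set.Finite.mem_toFinset]
  obtain ⟨P₀⟩ := nonempty_place (K := Qbar) (F := modularFunctionFieldBar M)
  have hPex : ∀ t : Place kA FM, ∃ P, t ∈ N₀ → r P = t ∧ P.ord (ModularFF.jElt Qbar M) = 1 := by
    intro t
    by_cases ht : t ∈ N₀
    · obtain ⟨P, hP⟩ := exists_elliptic_over S hr hfin ((hmemN₀ t).mp ht).2 ((hmemN₀ t).mp ht).1.1
      exact ⟨P, fun _ => hP⟩
    · exact ⟨P₀, fun h => absurd h ht⟩
  choose P hP using hPex
  -- the orders of `b` away from them are divisible by three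
  have hoff : ∀ t, t ∉ N₀ → (3 : ℤ) ∣ t.ord b := by
    intro t ht
    by_cases htn : t ∈ nodeSet S
    · exact hT3 ⟨t, htn⟩ (not_not.mp fun h => ht ((hmemN₀ t).mpr ⟨htn, h⟩))
    · exact (ZMod.intCast_zmod_eq_zero_iff_dvd _ 3).mp
        (T.divisibility.1 t fun s' hs' => htn (hs'.symm ▸ s'.2))
  set B := ∑ t ∈ N₀, Finsupp.single t (t.ord b) with hB
  have hBapply : ∀ t, B t = if t ∈ N₀ then t.ord b else 0 := by
    intro t
    rw [hB, Finsupp.finsetSum_apply]
    simp [Finsupp.single_apply]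
  obtain ⟨B', hB'⟩ : ∃ B' : Divisor kA FM, divFun (K := kA) b - B = (3 : ℤ) • B' :=
    exists_eq_smul_of_dvd fun t => by
      rw [Finsupp.sub_apply, divFun_apply, hBapply]
      split_ifs with ht
      · rw [sub_self]; exact dvd_zero 3
      · rw [sub_zero]; exact hoff t ht
  set D₀ := ∑ t ∈ N₀, Finsupp.single (P t) (t.ord b) with hD₀
  have hdeg : Divisor.degree B = Divisor.degree D₀ := by
    rw [hB, hD₀, map_sum, map_sum]
    refine Finset.sum_congr rfl fun t _ => ?_
    rw [Divisor.degree_single, Divisor.degree_single, place_deg_eq_one, place_deg_eq_one]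
  have h3deg : Divisor.degree D₀ = -(3 * Divisor.degree B') := by
    have h := congrArg Divisor.degree hB'
    rw [map_sub, degree_divFun, map_zsmul, smul_eq_mul, hdeg] at h
    linarith
  -- a function on `X₀(M)` with these orders modulo three
  set D₁ := D₀ + (3 : ℤ) • Finsupp.single P₀ (Divisor.degree B')
  have hD₁ : D₁ ∈ Divisor.degZero (K := Qbar) (F := modularFunctionFieldBar M) := by
    rw [Divisor.mem_degZero, map_add, map_zsmul, Divisor.degree_single, place_deg_eq_one, h3deg,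
      smul_eq_mul, Nat.cast_one, mul_one]
    ring
  obtain ⟨z, hz⟩ := MazurStep.exists_nsmul_eq_jZero (N := M) (by norm_num : (3 : ℕ) ≠ 0)
    (Pic0.mk ⟨D₁, hD₁⟩)
  obtain ⟨E, rfl⟩ := Pic0.mk_surjective z
  obtain ⟨G, hG, hGdiv⟩ : D₁ - (3 : ℤ) • (E : Divisor Qbar (modularFunctionFieldBar M)) ∈
      Divisor.principal (K := Qbar) (F := modularFunctionFieldBar M) := by
    have h : Pic0.mk (⟨D₁, hD₁⟩ - 3 • E) = 0 := by
      show QuotientAddGroup.mk _ = _
      rw [QuotientAddGroup.mk_sub, QuotientAddGroup.mk_nsmul]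
      exact sub_eq_zero.mpr hz.symm
    rw [Pic0.mk, QuotientAddGroup.eq_zero_iff, AddSubgroup.mem_addSubgroupOf] at h
    simpa [← natCast_zsmul] using h
  set E' := Finsupp.single P₀ (Divisor.degree B') - (E : Divisor Qbar (modularFunctionFieldBar M))
  have hG' : ∀ Q, D₀ Q + 3 * E' Q = Q.ord G := fun Q => by
    rw [← hGdiv Q]
    simp only [D₁, E', Finsupp.sub_apply, Finsupp.add_apply, Finsupp.smul_apply, smul_eq_mul]
    ring
  obtain ⟨g, hg0, hgord⟩ := S.red.exists_unit_same_ord hG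
  have hDg : ∀ Q, (D₀ + (3 : ℤ) • E') Q = Q.ord (g : modularFunctionFieldBar M) := fun Q => by
    rw [hgord, ← hG', Finsupp.add_apply, Finsupp.smul_apply, smul_eq_mul]
  have hmapD₀ : ∀ t, Finsupp.mapDomain r D₀ t = B t := by
    intro t
    rw [hD₀, hB, Finsupp.mapDomain_finsetSum, Finsupp.finsetSum_apply, Finsupp.finsetSum_apply]
    refine Finset.sum_congr rfl fun t' ht' => ?_
    rw [Finsupp.mapDomain_single, (hP t' ht').1]
  set r₀ := S.red.res g with hr₀def
  have hord₀ : ∀ t, t ∈ nodeSet S → (3 : ℤ) ∣ t.ord r₀ - t.ord b := by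
    intro t ht
    rw [← hr.2 g hg0 _ hDg t, Finsupp.mapDomain_add, Finsupp.mapDomain_smul, Finsupp.add_apply,
      hmapD₀, Finsupp.smul_apply, smul_eq_mul, hBapply]
    split_ifs with h
    · rw [add_sub_cancel_left]; exact dvd_mul_right 3 _
    · rw [zero_add]; exact dvd_sub (dvd_mul_right 3 _) (hoff t h)
  -- the norms
  have hGne : (g : modularFunctionFieldBar M) ≠ 0 := fun h => hg0 (by
    show S.red.res g = 0
    rw [show g = 0 from Subtype.ext h, map_zero])
  set Tc := (Divisor.pushforwardAlong (heckeAlphaBar Qbar M ℓ)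
      (isIntegral_of_isFunctionField _)).comp
    (Divisor.pullbackAlong (heckeBetaBar Qbar M ℓ) (isIntegral_of_isFunctionField _)) with hTc
  have hDn : ∀ Q, Tc (D₀ + (3 : ℤ) • E') Q =
      Q.ord (normAlong (heckeAlphaBar Qbar M ℓ) (heckeBetaBar Qbar M ℓ g)) := fun Q => by
    rw [hTc, AddMonoidHom.comp_apply,
      pushforwardAlong_apply_principal _ _ (FFBasic.finiteAlong _) (FFBasic.normFormulaAlong _ _)
        ((_root_.map_ne_zero _).mpr hGne) (pullbackAlong_apply_principal _ _ hDg)]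
  obtain ⟨y₀, hy₀, hy₀ord⟩ := exists_isNrm_ord S hℓM hu hv hr g.2 hg0 _ hDn
  obtain ⟨W, hW⟩ : ∃ W, Tc D₀ - ((ℓ : ℤ) + 1) • D₀ = (3 : ℤ) • W := by
    refine exists_eq_smul_of_dvd fun Q => ?_
    rw [hD₀, map_sum, Finset.smul_sum, ← Finset.sum_sub_distrib, Finsupp.finsetSum_apply]
    refine Finset.dvd_sum fun t ht => ?_
    rw [show Finsupp.single (P t) (t.ord b) = t.ord b • Finsupp.single (P t) (1 : ℤ) by simp,
      map_zsmul, smul_comm, ← smul_sub, Finsupp.smul_apply, smul_eq_mul, Finsupp.sub_apply,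
      Finsupp.smul_apply, smul_eq_mul]
    exact Dvd.dvd.mul_left (three_dvd_correspondence_sub hℓ hℓM (isIntegral_of_isFunctionField _)
      (isIntegral_of_isFunctionField _) (hP t ht).2 Q) _
  have hordy₀ : ∀ t ∈ nodeSet S, (3 : ℤ) ∣ t.ord y₀ - ((ℓ : ℤ) + 1) * t.ord b := by
    intro t ht
    have hsplit : Tc (D₀ + (3 : ℤ) • E') = ((ℓ : ℤ) + 1) • D₀ + (3 : ℤ) • (W + Tc E') := by
      rw [map_add, map_zsmul, smul_add, ← hW]
      abel
    rw [hy₀ord t, hsplit, Finsupp.mapDomain_add, Finsupp.mapDomain_smul, Finsupp.mapDomain_smul,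
      Finsupp.add_apply, Finsupp.smul_apply, Finsupp.smul_apply, hmapD₀, smul_eq_mul, smul_eq_mul,
      hBapply]
    split_ifs with h
    · rw [add_sub_cancel_left]; exact dvd_mul_right 3 _
    · rw [mul_zero, zero_add]; exact dvd_sub (dvd_mul_right 3 _) ((hoff t h).mul_left _)
  -- comparing `b` with the reduction of `G`
  have hb0 : b ≠ 0 := T.bar_ne₁
  have hr₀ : r₀ ≠ 0 := hg0
  set c := b / r₀ with hc
  have hc0 : c ≠ 0 := div_ne_zero hb0 hr₀
  obtain ⟨yc, hyc⟩ := exists_isNrm S hℓN hu hv hc0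
  obtain ⟨y, hy0, hy, hslope⟩ := exists_isNrm_slope₁_hecke S (pairReduction S hk) rfl hℓN hu hv
    (T := T)
  have hcord : ∀ t ∈ nodeSet S, ((t.ord c : ℤ) : ZMod 3) =
      (0 : ZMod 3) * ((t.ord (hbar S) : ℤ) : ZMod 3) := by
    intro t ht
    rw [zero_mul, ZMod.intCast_zmod_eq_zero_iff_dvd, hc, div_eq_mul_inv,
      t.ord_mul hb0 (inv_ne_zero hr₀), t.ord_inv]
    have := hord₀ t ht
    push_cast
    omega
  have hsn : (node₁ S s) ∈ nodeSet S := s.2
  have hyc0 := hyc.ord_congr S hℓN hu hv hc0 one_ne_zero (w := fun t => t.ord (hbar S))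
    (fun t _ => by rw [Nat.cast_one, one_mul]) hcord hsn
  rw [zero_mul, mul_zero] at hyc0
  have hyeq : y = yc * y₀ := by
    refine hy.unique ?_
    have := hyc.mul hy₀
    rwa [← hr₀def, hc, div_mul_cancel₀ _ hr₀] at this
  rw [← hT, hslope s, PairReduction.slope₁_eq (T := T) rfl]
  show ((node₁ S s).ord y : ZMod 3) = ((ℓ : ZMod 3) + 1) * ((node₁ S s).ord b : ZMod 3)
  rw [hyeq, (node₁ S s).ord_mul (hyc.ne_zero hc0) (hy₀.ne_zero hg0), Int.cast_add, hyc0, zero_add]
  have h := (ZMod.intCast_zmod_eq_zero_iff_dvd _ 3).mpr (hordy₀ _ hsn)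
  push_cast at h
  exact sub_eq_zero.mp h

/-- The wild congruence at three when all the widths are divisible by three. -/
theorem exists_slope₁_eq_of_forall (hA : A.LiesOverPrime 3)
    (hall : ∀ s : nodeSet S, (3 : ℤ) ∣ (node₁ S s).ord (Deuring.Modular.jFb (k := kA) M))
    {x : JZero (M * 3)} (hx : 3 • x = 0)
    (hα : pushJ (heckeAlphaBar Qbar M 3) x = 0) (hβ : pushJ (heckeBetaBar Qbar M 3) x = 0)
    (hfix : IsPeuFixed A 3 x) :
    ∃ c : ZMod 3, ∀ s, (pairReduction S hk).slope₁ 3 x s =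
      c * (((node₁ S s).ord (hbar S) / ((3 : ℕ) : ℤ) : ℤ) : ZMod 3) := by
  obtain ⟨T, hT, j₀, hj⟩ :=
    SemistableSplit.exists_int_congr S hk (by norm_num) hA hx hα hβ hfix
  have e8 : (8 : ZMod 3) = 2 := by rfl
  have e3 : (3 : ZMod 3) = 0 := by rfl
  refine ⟨2 * (j₀ : ZMod 3), fun s => ?_⟩
  obtain ⟨j, hjd, h⟩ := hj s
  obtain ⟨u, hu⟩ : ((3 : ℕ) : ℤ) ∣ (node₁ S s).ord (hbar S) := by
    rw [ord_hbar_eq]; exact_mod_cast (hall s).mul_left 2
  rw [hu, Int.mul_ediv_cancel_left _ (by norm_num), PairReduction.slope₁_eq hT]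
  rw [hu] at h
  have h8 : (8 : ℤ) * (node₁ S s).ord T.bar.1 = j * u := by
    push_cast at h
    linarith
  have h2 := congrArg (fun t : ℤ => (t : ZMod 3)) h8
  push_cast at h2
  rw [← (ZMod.intCast_eq_intCast_iff_dvd_sub j₀ j 3).mpr hjd, e8] at h2
  show ((node₁ S s).ord T.bar.1 : ZMod 3) = _
  linear_combination (2 : ZMod 3) * h2 - ((node₁ S s).ord T.bar.1 : ZMod 3) * e3

omit [IsAlgClosed kA] [CharP kA 3] [IsFunctionField kA FM]
  [IsFunctionField (AlgebraicClosure ℚ) (modularFunctionFieldBar (M * 3))] in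
/-- Mazur's slope input at three, at every level prime to three. -/
theorem slopeEisensteinAt_three (h3M : ¬ 3 ∣ M) : SemistableHecke.SlopeEisensteinAt M 3 := by
  intro A hA x hx hα hβ hfix hns ℓ a hℓ hℓN hT
  have := Semistable.charP_residueField hA
  have := Deuring.isAlgClosed_residueField A
  have := Deuring.Modular.isFunctionFieldk (Semistable.Level.setting M 3 h3M hA).good
  have := FLTAgent.GaloisAttach.isFunctionField_bar (M * 3)
  set S := Semistable.Level.setting M 3 h3M hA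
  have hk := Semistable.Level.hbar_mem_kj S
    (Semistable.Level.setting 1 3 Nat.prime_three.not_dvd_one hA)
  obtain ⟨s, hs⟩ := SemistableSplit.exists_slope₁_ne_zero S hk hns
  by_cases hall : ∀ s : nodeSet S,
      (3 : ℤ) ∣ (node₁ S s).ord (Deuring.Modular.jFb (k := IsLocalRing.ResidueField A) M)
  · obtain ⟨c, hc⟩ := exists_slope₁_eq_of_forall S hk hA hall hx hα hβ hfix
    have h := Semistable.Eisenstein.slope₁_hecke_div S hk hℓ hℓN hx (g := 3) (by norm_num)
      (fun s' => by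
        rw [show (node₁ S s').ord (hbar S) = _ from ord_hbar_eq S _]
        exact_mod_cast (hall s').mul_left 2)
      hc s
    rw [hT, SemistableSplit.slope₁_nsmul S hk hx] at h
    exact mul_right_cancel₀ hs h
  · push Not at hall
    obtain ⟨s₀, hs₀⟩ := hall
    have h := slope₁_hecke_three S hk hA hx hα hβ hfix hs₀ hℓ hℓN s
    rw [hT, SemistableSplit.slope₁_nsmul S hk hx] at h
    exact mul_right_cancel₀ hs h

end FLTAgent.MazurGeneral
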