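import Fermat.Agent.SemistableFinals.MazurAssembly
import Fermat.Agent.MazurGeneral.SlopeThreeAll
import Fermat.Agent.SemistableFinals.PrincipleLevel
import Fermat.Agent.SemistableSplit.SlopeEisenstein

/-!
# Mazur's principle at `p` for a curve semistable at `p`

For an odd prime `p` and a curve semistable at `p` with irreducible `p`-torsion, good or peu
ramifié at `p`, residual modularity of a level `M` with `p ∥ M` descends to level `M / p`.
-/

set_option autoImplicit false

noncomputable section

open WeierstrassCurve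

namespace FLTAgent.MazurGeneral

/-- The slope input at every odd prime and every level prime to it. -/
theorem slopeEisensteinAt_odd {p : ℕ} [Fact p.Prime] [NeZero p] (hp2 : p ≠ 2) (M : ℕ) [NeZero M]
    (hpM : ¬ p ∣ M) : SemistableHecke.SlopeEisensteinAt M p := by
  have hp : p.Prime := Fact.out
  by_cases h3 : p = 3
  · subst h3
    exact slopeEisensteinAt_three hpM
  · have hp5 : 5 ≤ p := by
      by_contra h
      have := hp.two_le
      interval_cases p <;> first | omega | norm_num at hp
    exact SemistableSplit.slopeEisensteinAt_of_five_le hp5 hpM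

/-- **Mazur's principle at `p`** for a curve semistable at `p`. -/
theorem residual_div_of_semistableAt (W : WeierstrassCurve ℤ) (hΔ : W.Δ ≠ 0) {p : ℕ}
    (hp : p.Prime) (hp2 : p ≠ 2) (hss : (p : ℤ) ∣ W.Δ → ¬ (p : ℤ) ∣ W.c₄)
    (hirr : W.ModRepIsIrreducible p)
    (hloc : W.IsGoodPrimeFor p ∨
      ((p : ℤ) ∣ W.Δ ∧ (W.map (Int.castRingHom ℚ)).IsPeuRamifieeAt p p))
    {M : ℕ} (hM : 0 < M) (hpM : p ∣ M) (hp2M : ¬ p ^ 2 ∣ M)
    (hmod : W.IsResiduallyModularOfLevel p M) : W.IsResiduallyModularOfLevel p (M / p) := by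
  have : Fact p.Prime := ⟨hp⟩
  have : NeZero p := ⟨hp.ne_zero⟩
  obtain ⟨M₀, rfl⟩ := hpM
  rw [mul_comm] at hM hmod
  rw [Nat.mul_div_cancel_left _ hp.pos]
  have : NeZero M₀ := ⟨fun h => by simp [h] at hM⟩
  have hndvd : ¬ p ∣ M₀ := fun h => hp2M (by rw [pow_two]; exact mul_dvd_mul_left p h)
  exact SemistableFinals.residualOutside_empty.mp
    (SemistableFinals.residual_of_inputs hp2 hΔ hss hirr hndvd
      (slopeEisensteinAt_odd hp2 M₀ hndvd) (SemistableFinals.abelianLevelAt M₀ p hndvd) hloc
      (SemistableFinals.residualOutside_empty.mpr hmod))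

end FLTAgent.MazurGeneral
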